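import Mathlib
import Fermat.Agent.LT.T7.H563.ProdMtQSpec

/-!
# Row LT, tower T7, leaf T7.L2Q.1.H2b.0 `PQ563.UnramQC563` (helper570, registry row 2917)

OFF-MAIN.  Spec: `T7/H563/ProdMtQSpec.lean` (helper563, sha256 7dfd10fea1baf846).  Imports ONLY
Mathlib and the Spec.  ADDITIVE (new names only, all suffixed `570`, namespace
`Fermat.Agent.LT.T7.H570UQ`).  No definition of another file is opened by a rewriting step (the
frozen Prop is entered by introduction only).

    unramQC570 (F) : PQ563.UnramQC563 F            VERBATIM, UNCONDITIONAL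

Proof (the route of the three proofs of `CQ57.UnramQC57`, helper270 / helper562 / helper644,
written out again on the form of helper563).  `IsImagQuad F` gives `[F : ℚ] = 2`.  With
`θ² = -3` the element `ζ = (θ - 1) / 2` is integral, a root of `X² + X + 1`, not rational, hence
of minimal polynomial `X² + X + 1` over `𝓞 ℚ` and a generator of `F`; so `2 ζ + 1 = θ` lies in
the different (`aeval_derivative_mem_differentIdeal`).  A place `w` dividing the different
contains `θ`, hence `3 = -θ²`, hence lies in `S'` (`3 ∈ S`, `L2Q.H60.full_of_isL2QBase60`).  A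
place not dividing the different is unramified (`not_dvd_differentIdeal_iff`): a uniformiser of
`v` has `w`-valuation `exp (-1)`, so it is not in `w²`.
-/

set_option autoImplicit false
set_option linter.unusedSectionVars false
set_option linter.deprecated false

open AutomorphicForm IsDedekindDomain NumberField WithZero Polynomial

noncomputable section

namespace Fermat.Agent.LT.T7.H570UQ

open Fermat.Agent.LT.H556 Fermat.Agent.LT.H556.A0 Fermat.Agent.LT.T7

/-- `PlaceOver` gives `LiesOver`. -/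
theorem liesOver_of_placeOver570 {K K' : Type} [Field K] [NumberField K] [Field K']
    [NumberField K'] [Algebra K K'] {v : HeightOneSpectrum (𝓞 K)}
    {w : HeightOneSpectrum (𝓞 K')} (h : PlaceOver K K' v w) :
    w.asIdeal.LiesOver v.asIdeal := by
  refine ⟨?_⟩
  ext x
  rw [Ideal.under_def, Ideal.mem_comap]
  exact h x (algebraMap (𝓞 K) (𝓞 K') x) rfl

/-- An imaginary quadratic field has degree two. -/
theorem finrank_eq_two570 {F : Type} [Field F] [NumberField F] (h : IsImagQuad F) :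
    Module.finrank ℚ F = 2 := by
  classical
  have : IsTotallyComplex F := ⟨h.2⟩
  have h0 : InfinitePlace.nrRealPlaces F = 0 := IsTotallyComplex.nrRealPlaces_eq_zero F
  have hc : Fintype.card (InfinitePlace F) = 1 := by
    rw [← Nat.card_eq_fintype_card]; exact h.1
  have h1 := InfinitePlace.card_eq_nrRealPlaces_add_nrComplexPlaces (K := F)
  have h2 := IsTotallyComplex.finrank F
  omega

/-- A place which does not divide the different is unramified: some element of `v` is not in
`w²`. -/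
theorem exists_not_mem_sq_of_not_dvd570 {K K' : Type} [Field K] [NumberField K] [Field K']
    [NumberField K'] [Algebra K K'] (v : HeightOneSpectrum (𝓞 K))
    (w : HeightOneSpectrum (𝓞 K')) (hvw : PlaceOver K K' v w)
    (h1 : ¬ w.asIdeal ∣ differentIdeal (𝓞 K) (𝓞 K')) :
    ∃ x : 𝓞 K, x ∈ v.asIdeal ∧ algebraMap (𝓞 K) (𝓞 K') x ∉ w.asIdeal ^ 2 := by
  have hun : Algebra.IsUnramifiedAt (𝓞 K) w.asIdeal := not_dvd_differentIdeal_iff.1 h1
  have he : w.asIdeal.ramificationIdx (𝓞 K) = 1 :=
    Ideal.ramificationIdx_eq_one_of_isUnramifiedAt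
  have := liesOver_of_placeOver570 hvw
  have he' : v.asIdeal.ramificationIdx' w.asIdeal = 1 := by
    rw [Ideal.ramificationIdx'_eq_ramificationIdx v.asIdeal w.asIdeal v.ne_bot]
    exact he
  obtain ⟨x, hx⟩ := v.intValuation_exists_uniformizer
  have h2 := HeightOneSpectrum.intValuation_liesOver v w x
  rw [he', pow_one, hx] at h2
  refine ⟨x, ?_, ?_⟩
  · rw [← HeightOneSpectrum.intValuation_lt_one_iff_mem, hx, ← exp_zero, exp_lt_exp]
    omega
  · intro hmem
    have h3 := (HeightOneSpectrum.intValuation_le_pow_iff_mem w _ 2).2 hmem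
    rw [← h2, exp_le_exp] at h3
    omega

variable {F : Type} [Field F] [NumberField F]

/-- In a quadratic field with a square root of `-3` the different contains a square root of
`-3`. -/
theorem exists_sqrt_mem_different570 (hd : Module.finrank ℚ F = 2) (θ : F)
    (hθ : θ * θ = -3) :
    ∃ t : 𝓞 F, t * t = -3 ∧ t ∈ differentIdeal (𝓞 ℚ) (𝓞 F) := by
  classical
  -- the cube root of unity
  obtain ⟨ζ, hζdef⟩ : ∃ ζ : F, ζ = (θ - 1) / 2 := ⟨_, rfl⟩
  have hζ : ζ ^ 2 + ζ + 1 = 0 := by
    have : ζ ^ 2 + ζ + 1 = (θ * θ + 3) / 4 := by rw [hζdef]; ring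
    rw [this, hθ]; norm_num
  have hθζ : θ = 2 * ζ + 1 := by rw [hζdef]; ring
  have hint : IsIntegral ℤ ζ := by
    refine ⟨X ^ 2 + X + 1, ?_, ?_⟩
    · monicity!
    · simp [hζ]
  obtain ⟨z, hzF⟩ : ∃ z : 𝓞 F, algebraMap (𝓞 F) F z = ζ := ⟨⟨ζ, hint⟩, rfl⟩
  have hz : z ^ 2 + z + 1 = 0 := by
    apply RingOfIntegers.coe_injective
    show algebraMap (𝓞 F) F (z ^ 2 + z + 1) = algebraMap (𝓞 F) F 0
    rw [map_add, map_add, map_pow, map_one, map_zero, hzF]
    exact hζ
  -- `ζ` is not rational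
  have hirr : ∀ q : ℚ, algebraMap ℚ F q ≠ ζ := by
    intro q hq
    have h1 : algebraMap ℚ F ((2 * q + 1) * (2 * q + 1)) = algebraMap ℚ F (-3) := by
      simp only [map_mul, map_add, map_one, map_neg, map_ofNat, hq]
      rw [← hθζ, hθ]
    have h2 := (algebraMap ℚ F).injective h1
    nlinarith [sq_nonneg (2 * q + 1)]
  -- the minimal polynomial
  obtain ⟨P, hP⟩ : ∃ P : (𝓞 ℚ)[X], P = X ^ 2 + X + 1 := ⟨_, rfl⟩
  have hPm : P.Monic := by rw [hP]; monicity!
  have hPd : P.natDegree = 2 := by rw [hP]; compute_degree!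
  have hPz : aeval z P = 0 := by simp [hP, hz]
  have hzint : IsIntegral (𝓞 ℚ) z := ⟨P, hPm, by simpa [aeval_def] using hPz⟩
  have hdvd : minpoly (𝓞 ℚ) z ∣ P := minpoly.isIntegrallyClosed_dvd hzint hPz
  have hdeg : 2 ≤ (minpoly (𝓞 ℚ) z).natDegree := by
    rw [minpoly.two_le_natDegree_iff hzint]
    rintro ⟨a, ha⟩
    apply hirr (algebraMap (𝓞 ℚ) ℚ a)
    have : algebraMap (𝓞 F) F (algebraMap (𝓞 ℚ) (𝓞 F) a) = ζ := by
      rw [ha, hzF]
    rw [← this]
    exact (IsScalarTower.algebraMap_apply (𝓞 ℚ) ℚ F a).symm.trans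
      (IsScalarTower.algebraMap_apply (𝓞 ℚ) (𝓞 F) F a)
  have hmin : minpoly (𝓞 ℚ) z = P := by
    symm
    exact (Polynomial.eq_of_monic_of_dvd_of_natDegree_le (minpoly.monic hzint) hPm hdvd
      (by rw [hPd]; exact hdeg))
  -- `ζ` generates `F`
  have hgen : Algebra.adjoin ℚ {algebraMap (𝓞 F) F z} = ⊤ := by
    rw [hzF]
    have hintQ : IsIntegral ℚ ζ := hint.tower_top
    have hdegQ : 2 ≤ (minpoly ℚ ζ).natDegree := by
      rw [minpoly.two_le_natDegree_iff hintQ]
      rintro ⟨q, hq⟩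
      exact hirr q hq
    have hle : (minpoly ℚ ζ).natDegree ≤ 2 := by
      rw [← hd]
      exact minpoly.natDegree_le ζ
    have htop : IntermediateField.adjoin ℚ {ζ} = ⊤ := by
      rw [Field.primitive_element_iff_minpoly_natDegree_eq, hd]
      omega
    have := congrArg IntermediateField.toSubalgebra htop
    rw [IntermediateField.adjoin_simple_toSubalgebra_of_isAlgebraic hintQ.isAlgebraic] at this
    simpa using this
  have hmem := aeval_derivative_mem_differentIdeal (𝓞 ℚ) ℚ F z hgen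
  rw [hmin] at hmem
  have hder : aeval z (derivative P) = 2 * z + 1 := by
    rw [hP]
    simp
    exact Or.inl (by norm_num)
  rw [hder] at hmem
  refine ⟨2 * z + 1, ?_, hmem⟩
  have : (2 * z + 1) * (2 * z + 1) = 4 * (z ^ 2 + z + 1) - 3 := by ring
  rw [this, hz]; ring

/-- A place of `F` which divides the different contains `3`. -/
theorem three_mem_of_dvd_different570 (hd : Module.finrank ℚ F = 2)
    (hs : HasSqrtNegThree F) (w : HeightOneSpectrum (𝓞 F))
    (hdvd : w.asIdeal ∣ differentIdeal (𝓞 ℚ) (𝓞 F)) : ((3 : ℕ) : 𝓞 F) ∈ w.asIdeal := by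
  obtain ⟨θ, hθ⟩ := hs
  obtain ⟨t, ht, htmem⟩ := exists_sqrt_mem_different570 hd θ hθ
  have htw : t ∈ w.asIdeal := (Ideal.dvd_iff_le.1 hdvd) htmem
  have h1 : t * t ∈ w.asIdeal := w.asIdeal.mul_mem_left t htw
  rw [ht] at h1
  have h2 := w.asIdeal.neg_mem h1
  rw [neg_neg] at h2
  exact_mod_cast h2

/-- **The arithmetic of the leaf**: in `F = ℚ(√-3)` a place which does not contain `3` is
unramified over `ℚ`. -/
theorem exists_not_mem_sq_of_three_not_mem570 (hs : HasSqrtNegThree F) (hq : IsImagQuad F)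
    (v : HeightOneSpectrum (𝓞 ℚ)) (w : HeightOneSpectrum (𝓞 F)) (hvw : PlaceOver ℚ F v w)
    (h3 : ((3 : ℕ) : 𝓞 F) ∉ w.asIdeal) :
    ∃ x : 𝓞 ℚ, x ∈ v.asIdeal ∧ algebraMap (𝓞 ℚ) (𝓞 F) x ∉ w.asIdeal ^ 2 :=
  exists_not_mem_sq_of_not_dvd570 v w hvw
    (fun hdvd => h3 (three_mem_of_dvd_different570 (finrank_eq_two570 hq) hs w hdvd))

/-- **LEAF T7.L2Q.1.H2b.0 = UNRAM** (`PQ563.UnramQC563 F`, VERBATIM). -/
theorem unramQC570 (F : Type) [Field F] [NumberField F] : PQ563.UnramQC563 F := by
  intro hs hq Φ B hB hram v w hvw hw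
  exact exists_not_mem_sq_of_three_not_mem570 hs hq v w hvw
    (fun h3w => hw (L2Q.H60.full_of_isL2QBase60 hB 3 Nat.prime_three hram w h3w))

end Fermat.Agent.LT.T7.H570UQ

end
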