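import Mathlib
import Fermat.Agent.LT.T7.H893.SupplyFamSpec
import Fermat.Agent.LT.T5.H277.Coeff

/-!
# Row LT, tower T7, node T7.L2.1.F, LEAF T7.L2.1.F4 `KillUpC` (helper570)

OFF-MAIN.  `killUpC570 K K' : H893.KillUpC K K'` VERBATIM (SupplyFamSpec.lean of helper893,
sha256 32dee4c883d1e310), UNCONDITIONAL.  Also `killDownC570 K K' : H893.KillDownC K K'`
(the same proof downstairs).

Proof.  `R(φ₁ ⋆ φ) = R(φ₁) R(φ)` for continuous functions with compact support
(`T5.H277.Rconv_Rconv277`, helper277, byte-identical copy), and the class of the continuous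
functions `φ` with compact support and `R(φ) ψ = 0` is stable under left translates, finite sums
of left translates and scalar multiples (left invariance of the Haar measure), hence under
`lsum`, `iwL`, `regL`.  The second base function is in the class by `up2_kill` (`dn2_kill`).
-/

set_option autoImplicit false

open AutomorphicForm IsDedekindDomain NumberField MeasureTheory
open scoped ComplexConjugate

noncomputable section

namespace Fermat.Agent.LT.T7.H570

open Fermat.Agent.LT.H556 Fermat.Agent.LT.H556.A0 Fermat.Agent.LT.T7 Fermat.Agent.LT.T7.H893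

attribute [local instance] Fermat.Agent.LT.T5.instMeasurableSpaceG

section OneField

variable {K : Type} [Field K] [NumberField K]

/-- The class of the base functions which kill `ψ`: continuous, compact support,
`R(φ) ψ = 0`. -/
structure Kills570 (μ : Measure (G K)) (ψ : G K → ℂ) (φ : G K → ℂ) : Prop where
  cont : Continuous φ
  supp : HasCompactSupport φ
  kill : ∀ y : G K, T5.Rconv μ φ ψ y = 0

variable {μ : Measure (G K)} {ψ : G K → ℂ}

/-- `R(ltr b φ) ψ = (R(φ) ψ)(· b)`. -/
theorem Rconv_ltr570 [μ.IsMulLeftInvariant] (b : G K) (φ : G K → ℂ) (y : G K) :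
    T5.Rconv μ (ltr b φ) ψ y = T5.Rconv μ φ ψ (y * b) := by
  have : BorelSpace (G K) := T5.H277.borelSpaceG277
  unfold T5.Rconv ltr
  have h := integral_mul_left_eq_self (μ := μ) (fun t => φ (b⁻¹ * t) * ψ (y * t)) b
  rw [← h]
  refine integral_congr_ae (Filter.Eventually.of_forall fun t => ?_)
  simp only [inv_mul_cancel_left, mul_assoc]

theorem continuous_ltr570 (b : G K) {φ : G K → ℂ} (h : Continuous φ) :
    Continuous (ltr b φ) :=
  h.comp (continuous_const_mul b⁻¹)

theorem hasCompactSupport_ltr570 (b : G K) {φ : G K → ℂ} (h : HasCompactSupport φ) :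
    HasCompactSupport (ltr b φ) :=
  h.comp_homeomorph (Homeomorph.mulLeft b⁻¹)

theorem kills_ltr570 [μ.IsMulLeftInvariant] (b : G K) {φ : G K → ℂ} (h : Kills570 μ ψ φ) :
    Kills570 μ ψ (ltr b φ) where
  cont := continuous_ltr570 b h.cont
  supp := hasCompactSupport_ltr570 b h.supp
  kill := fun y => by rw [Rconv_ltr570, h.kill]

theorem kills_zero570 : Kills570 μ ψ (fun _ => (0 : ℂ)) where
  cont := continuous_const
  supp := HasCompactSupport.zero
  kill := fun y => by
    unfold T5.Rconv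
    simp

theorem kills_add570 [μ.IsHaarMeasure] (hψ : Continuous ψ) {φ₁ φ₂ : G K → ℂ}
    (h₁ : Kills570 μ ψ φ₁) (h₂ : Kills570 μ ψ φ₂) :
    Kills570 μ ψ (fun y => φ₁ y + φ₂ y) where
  cont := h₁.cont.add h₂.cont
  supp := h₁.supp.add h₂.supp
  kill := fun y => by
    have : BorelSpace (G K) := T5.H277.borelSpaceG277
    have hc : Continuous fun t : G K => ψ (y * t) := hψ.comp (continuous_const_mul y)
    have i₁ : Integrable (fun t => φ₁ t * ψ (y * t)) μ :=
      (h₁.cont.mul hc).integrable_of_hasCompactSupport h₁.supp.mul_right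
    have i₂ : Integrable (fun t => φ₂ t * ψ (y * t)) μ :=
      (h₂.cont.mul hc).integrable_of_hasCompactSupport h₂.supp.mul_right
    have e₁ := h₁.kill y
    have e₂ := h₂.kill y
    unfold T5.Rconv at e₁ e₂ ⊢
    simp only [add_mul]
    rw [integral_add i₁ i₂, e₁, e₂, add_zero]

theorem kills_smul570 (c : ℂ) {φ : G K → ℂ} (h : Kills570 μ ψ φ) :
    Kills570 μ ψ (fun y => c * φ y) where
  cont := continuous_const.mul h.cont
  supp := h.supp.mul_left
  kill := fun y => by
    have e := h.kill y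
    unfold T5.Rconv at e ⊢
    simp only [mul_assoc]
    rw [integral_const_mul, e, mul_zero]

theorem kills_sum570 [μ.IsHaarMeasure] (hψ : Continuous ψ) {ι : Type} (s : Finset ι)
    (f : ι → G K → ℂ) (h : ∀ i ∈ s, Kills570 μ ψ (f i)) :
    Kills570 μ ψ (fun y => ∑ i ∈ s, f i y) := by
  classical
  induction s using Finset.induction_on with
  | empty =>
    simpa using (kills_zero570 (μ := μ) (ψ := ψ))
  | insert a s ha ih =>
    have h1 : Kills570 μ ψ (f a) := h a (Finset.mem_insert_self a s)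
    have h2 : Kills570 μ ψ (fun y => ∑ i ∈ s, f i y) :=
      ih fun i hi => h i (Finset.mem_insert_of_mem hi)
    have h3 := kills_add570 hψ h1 h2
    have e : (fun y => ∑ i ∈ insert a s, f i y) = fun y => f a y + ∑ i ∈ s, f i y := by
      funext y
      rw [Finset.sum_insert ha]
    rw [e]
    exact h3

theorem kills_lsum570 [μ.IsHaarMeasure] (hψ : Continuous ψ) (H : Finset (G K)) {φ : G K → ℂ}
    (h : Kills570 μ ψ φ) : Kills570 μ ψ (lsum H φ) :=
  kills_sum570 hψ H (fun b => ltr b φ) fun b _ => kills_ltr570 b h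

theorem kills_iwL570 [μ.IsHaarMeasure] (hψ : Continuous ψ) (w : HeightOneSpectrum (𝓞 K))
    (H : Finset (G K)) {φ : G K → ℂ} (h : Kills570 μ ψ φ) : Kills570 μ ψ (iwL w H φ) :=
  kills_smul570 _ (kills_lsum570 hψ H h)

theorem kills_iter570 [μ.IsHaarMeasure] (hψ : Continuous ψ) (w : HeightOneSpectrum (𝓞 K))
    (H : Finset (G K)) (m : ℕ) {φ : G K → ℂ} (h : Kills570 μ ψ φ) :
    Kills570 μ ψ ((iwL w H)^[m] φ) := by
  induction m with
  | zero => simpa using h
  | succ n ih =>
    rw [Function.iterate_succ_apply']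
    exact kills_iwL570 hψ w H ih

theorem kills_regL570 [μ.IsHaarMeasure] (hψ : Continuous ψ) (w : HeightOneSpectrum (𝓞 K))
    (z : G K) (H : Finset (G K)) (k : ℤ) (m : ℕ) {φ : G K → ℂ} (h : Kills570 μ ψ φ) :
    Kills570 μ ψ (regL w z H k m φ) :=
  kills_ltr570 (z ^ k) (kills_iter570 hψ w H m h)

/-- `R(φ₁ ⋆ φ) ψ = 0` if `φ` kills `ψ`. -/
theorem Rconv_conv_kills570 {F : Set (G K)} (hF : T5.IsFrame μ F) (hψ : Continuous ψ)
    {φ₁ φ : G K → ℂ} (h₁c : Continuous φ₁) (h₁s : HasCompactSupport φ₁)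
    (h : Kills570 μ ψ φ) (x : G K) : T5.Rconv μ (T5.conv μ φ₁ φ) ψ x = 0 := by
  rw [← T5.H277.Rconv_Rconv277 hF h₁c h₁s h.cont h.supp hψ x]
  have e : T5.Rconv μ φ ψ = fun _ => 0 := funext h.kill
  rw [e]
  unfold T5.Rconv
  simp

end OneField

variable (K K' : Type) [Field K] [NumberField K] [Field K'] [NumberField K'] [Algebra K K']

/-- **LEAF T7.L2.1.F4 = KILL-UP**, VERBATIM. -/
theorem killUpC570 : KillUpC K K' := by
  intro ℓ Φ B hB g hg E hE X k m hX ψ hψ horth x
  have hF := hB.frame'.frame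
  have := hF.haar
  have h2 : Kills570 B.R'.μ ψ E.φ₂ :=
    ⟨hE.up2_test.cont, hE.up2_test.supp, hE.up2_kill ψ hψ horth⟩
  have h3 := kills_lsum570 hψ.cont E.Hg (kills_regL570 hψ.cont (B.o 0) E.z' E.H' k m h2)
  exact Rconv_conv_kills570 hF hψ.cont (hE.up1_test X hX).cont (hE.up1_test X hX).supp h3 x

/-- **LEAF T7.L2.1.F8 = KILL-DOWN**, VERBATIM (the same proof downstairs). -/
theorem killDownC570 : KillDownC K K' := by
  intro ℓ Φ B hB g hg E hE X k m hX ψ hψ horth x
  have hF := hB.frame.frame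
  have := hF.haar
  have h2 : Kills570 B.R.μ ψ E.f₂ :=
    ⟨hE.dn2_test.cont, hE.dn2_test.supp, hE.dn2_kill ψ hψ horth⟩
  have h3 := kills_regL570 hψ.cont B.u E.z E.H k m h2
  exact Rconv_conv_kills570 hF hψ.cont (hE.dn1_test X hX).cont (hE.dn1_test X hX).supp h3 x

end Fermat.Agent.LT.T7.H570

end
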