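import Mathlib
import Fermat.Agent.LT.T7.H973.PreBQSpec
import Fermat.Agent.LT.T7.H22.BadLoc

/-!
# Row LT, tower T7, leaf T7.L2Q.1.H2a.B.0.1 `PBQ973.BadPartQC973` (helper570, registry row 3129)

OFF-MAIN.  No hole, nothing assumed.  ADDITIVE (new names only, all suffixed `570`, namespace
`Fermat.Agent.LT.T7.H570BP`).  Spec: `T7/H973/PreBQSpec.lean` (helper973, sha256 200eee4e),
byte-identical copy.  No definition of another file is opened by a rewriting step.

    badPartQC570 (F) : PBQ973.BadPartQC973 F                     (VERBATIM, UNCONDITIONAL)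

## The proof

PORT to `K = ℚ`, `K' = F`, `ℓ = 2` of the proof of the cubic leaf `B970.BadLocC970` by the
architect of T6 (helper22, `T7/H22/BadLoc.lean`); his tools are stated for every extension of
number fields and are used as they are:

* `T6.H22.inertPartnerDbl22` (`T6.BadMatchC` + twisted change of level): at a place `w` which is
  the ONLY place over the place `v` under it there is `M_w` such that for all levels
  `n ≥ n₀ w`, `m ≥ M_w` the double coset function `1_{U(n₀ w) g_w U(n₀ w)}` has a partner;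
* `H22.enumBad22` (`T6.InstSplitC`), `H22.level_split22`, `T6.H22.transport22`,
  `T6.H22.exists_convProd22`: at a place which splits the partner is the convolution product of
  the transported double coset functions in the order of ONE enumeration;
* `T6.H22.dbl_inv_up22`, `H22.level_mono22`, `H22.level_unique22`.

THE LEVEL: `𝔫 = 𝔫₀ ^ d`, `𝔫₀` the ideal of `ℚ` under the base level (`IsL2QBase.base_level`),
`d = max M 1`, `M = max_{w ∈ S'} M_w`: the four level properties are clear, and the exponents of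
`𝔫₀ ^ d` at the places which divide it are `≥ d` (`le_level_of_le_pow570`).  THE ARCHIMEDEAN
COMPONENTS of the clause: the zero functions (`isArchTestC_zero570`, `isArchTestR_zero570`,
`isArchMatch_zero570`).
-/

set_option autoImplicit false
set_option linter.unusedSectionVars false
set_option linter.unusedVariables false

open AutomorphicForm IsDedekindDomain NumberField MeasureTheory

noncomputable section

namespace Fermat.Agent.LT.T7.H570BP

open Fermat.Agent.LT.H556 Fermat.Agent.LT.H556.A0 Fermat.Agent.LT.T7 Fermat.Agent.LT.T7.H305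
open Fermat.Agent.LT.T7.H893 Fermat.Agent.LT.T7.H962 Fermat.Agent.LT.T7.H732
open Fermat.Agent.LT.T7.MQ298 Fermat.Agent.LT.T7.CQ801 Fermat.Agent.LT
open Fermat.Agent.LT.T7.H22

/-! ## 1. The zero functions at infinity -/

theorem isArchTestC_zero570 : T6.IsArchTestC (fun _ : GL (Fin 2) ℂ => (0 : ℂ)) where
  cont := continuous_const
  supp := HasCompactSupport.zero
  smooth := fun _ _ _ _ => contDiff_const
  left := fun _ _ _ => rfl
  right := fun _ _ _ => rfl

theorem isArchTestR_zero570 (n : ℤ) : T6.IsArchTestR n (fun _ : GL (Fin 2) ℝ => (0 : ℂ)) where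
  cont := continuous_const
  supp := HasCompactSupport.zero
  smooth := fun _ _ _ _ => contDiff_const
  pos := fun _ h => absurd rfl h
  left := fun _ _ _ => (mul_zero _).symm
  right := fun _ _ _ => (mul_zero _).symm

theorem isArchMatch_zero570 (μ : @Measure (GL (Fin 2) ℝ) (borel _))
    (μ' : @Measure (GL (Fin 2) ℂ) (borel _)) :
    T6.IsArchMatch μ μ' (fun _ : GL (Fin 2) ℂ => (0 : ℂ))
      (fun _ : GL (Fin 2) ℝ => (0 : ℂ) + 0) := by
  intro γ _ μT _ β _ _ _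
  refine ⟨fun δ _ β' _ _ _ => ?_, fun _ => ?_⟩
  · simp
  · simp

/-! ## 2. The exponents of a level contained in a power of a place -/

/-- The exponent at `v` of an ideal contained in `v ^ d` is `≥ d`. -/
theorem le_level_of_le_pow570 {F : Type} [Field F] [NumberField F] {𝔫 : Ideal (𝓞 F)}
    {m : HeightOneSpectrum (𝓞 F) → ℕ} (hm : IsLevelOf893 𝔫 m) (v : HeightOneSpectrum (𝓞 F))
    {d : ℕ} (h : 𝔫 ≤ v.asIdeal ^ d) : d ≤ m v := by
  obtain ⟨y, hy⟩ := T6.H965.exists_val_eq_exp965 (locField22 v) (-(m v : ℤ))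
  have h1 : y ∈ idealClosure 𝔫 v := (hm v y).2 hy.le
  rw [idealClosure_eq22, mem_closure_iff_nhds] at h1
  obtain ⟨z, hz1, hz2⟩ :=
    h1 _ (T6.H965.closedBall_mem_nhds965 (locField22 v) y ((m v : ℤ) + 1))
  obtain ⟨a, ha, rfl⟩ := hz2
  have hlt : Valued.v (img22 v a - y) < Valued.v y := by
    refine lt_of_le_of_lt hz1 ?_
    rw [hy, WithZero.exp_lt_exp]
    omega
  have hva : Valued.v (img22 v a) = WithZero.exp (-(m v : ℤ)) := by
    have : img22 v a = y + (img22 v a - y) := by ring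
    rw [this, Valuation.map_add_eq_of_lt_left _ hlt, hy]
  have hint : Valued.v (img22 v a) = v.intValuation a := by
    show Valued.v ((algebraMap (𝓞 F) F a : F) : v.adicCompletion F) = _
    rw [HeightOneSpectrum.valuedAdicCompletion_eq_valuation',
      HeightOneSpectrum.valuation_of_algebraMap]
  have h2 : v.intValuation a ≤ WithZero.exp (-(d : ℤ)) :=
    (v.intValuation_le_pow_iff_mem a d).2 (h ha)
  rw [← hint, hva, WithZero.exp_le_exp] at h2
  omega

/-! ## 3. The level `𝔫₀ ^ d` -/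

section Level

variable {F : Type} [Field F] [NumberField F]

/-- The powers of the ideal under the base level are levels of the pre-data. -/
theorem isLevQ_pow570 {Φe : HeckeEigensystem F ℂ} {B : L2Q.H60.L2QBase F}
    (hB : L2Q.H60.IsL2QBase Φe B) {𝔫₀ : Ideal (𝓞 ℚ)} (h0 : 𝔫₀ ≠ ⊥)
    (h1 : B.𝔑₀ = Ideal.map (algebraMap (𝓞 ℚ) (𝓞 F)) 𝔫₀) (hu : B.u.asIdeal ∣ 𝔫₀) {d : ℕ}
    (hd : 1 ≤ d) : CQ57.IsLevQ57 (toBase962_732 B) (𝔫₀ ^ d) where
  level_ne := by
    rw [← Ideal.zero_eq_bot] at h0 ⊢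
    exact pow_ne_zero d h0
  level_g := by
    show Ideal.map (algebraMap (𝓞 ℚ) (𝓞 F)) (𝔫₀ ^ d) ≤ B.𝔑₀
    rw [Ideal.map_pow, h1]
    exact Ideal.pow_le_self (by omega)
  mem_S'_g := fun w => by
    show w ∈ B.S' ↔ w.asIdeal ∣ Ideal.map (algebraMap (𝓞 ℚ) (𝓞 F)) (𝔫₀ ^ d)
    rw [hB.mem_S' w, Ideal.map_pow, h1, Ideal.dvd_iff_le, Ideal.dvd_iff_le]
    exact (w.isPrime.pow_le_iff (by omega)).symm
  u_level := dvd_pow hu (by omega)

end Level

/-! ## 4. The partners at the deep levels -/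

section Partner

variable {F : Type} [Field F] [NumberField F]

/-- **THE BOUND** (the mirror over `ℚ` of `B970.BadLocC970`): there is `M` such that for every
level with the level properties and exponents `≥ M` on `T₀` there is a partner family. -/
theorem exists_bound570 (hq : IsImagQuad F) {Φe : HeckeEigensystem F ℂ}
    {B : L2Q.H60.L2QBase F} (hB : L2Q.H60.IsL2QBase Φe B) (g : G F) :
    ∃ M : ℕ, ∀ 𝔫 : Ideal (𝓞 ℚ), CQ57.IsLevQ57 (toBase962_732 B) 𝔫 →
      ∀ (T₀ : Finset (HeightOneSpectrum (𝓞 ℚ)))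
        (n n₀ : HeightOneSpectrum (𝓞 F) → ℕ) (m : HeightOneSpectrum (𝓞 ℚ) → ℕ),
        CQ57.IsLevFnQ57 (toBase962_732 B) 𝔫 T₀ n n₀ m → (∀ v ∈ T₀, M ≤ m v) →
        ∃ fb : ∀ v : HeightOneSpectrum (𝓞 ℚ), GL (Fin 2) (v.adicCompletion ℚ) → ℂ,
          PBQ973.IsBadPartQ973 (toBase962_732 B) g 𝔫 T₀ n n₀ m fb := by
  classical
  have hcyc : IsCycExt ℚ F 2 := isCycExt_of_imagQuad298 hq
  have := hcyc.galois
  have hfix : ∀ y : ℚ, B.s.σ (algebraMap ℚ F y) = algebraMap ℚ F y := fun y =>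
    (hB.cyc.fixed _).1 ((hB.base _).2 ⟨y, rfl⟩)
  obtain ⟨s, hsσ⟩ : ∃ s : F ≃ₐ[ℚ] F, ∀ y : F, B.s.σ y = s y :=
    ⟨AlgEquiv.ofRingEquiv (f := B.s.σ) hfix, fun _ => rfl⟩
  have hrank : Module.finrank ℚ F = 2 := hcyc.degree
  have hprime : (Module.finrank ℚ F).Prime := by rw [hcyc.degree]; exact hcyc.prime
  have hgen : ∀ t : F ≃ₐ[ℚ] F, t ∈ Subgroup.zpowers s := by
    apply gal_gen22 hcyc B.s.σ s (fun x => (hsσ x).symm)
    obtain ⟨x, hx⟩ := hB.cyc.faithful 1 Nat.one_pos (by norm_num)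
    exact ⟨x, by simpa using hx⟩
  by_cases hn₀ : ∃ N₀ : HeightOneSpectrum (𝓞 F) → ℕ, IsLevelOf893 B.𝔑₀ N₀
  swap
  · exact ⟨0, fun 𝔫 _ T₀ n n₀ m hexp _ => absurd ⟨n₀, hexp.lev_base⟩ hn₀⟩
  obtain ⟨N₀, hN₀⟩ := hn₀
  -- the bounds at the places with one place over the place under them
  have hex : ∀ w : HeightOneSpectrum (𝓞 F), ∃ Mw : ℕ, ∀ v : HeightOneSpectrum (𝓞 ℚ),
      PlaceOver ℚ F v w → (∀ w' : HeightOneSpectrum (𝓞 F), PlaceOver ℚ F v w' → w' = w) →
      ∀ n m : ℕ, N₀ w ≤ n → Mw ≤ m → ∃ f : GL (Fin 2) (v.adicCompletion ℚ) → ℂ,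
        T6.IsBiInv (T6.InU m) f ∧ T6.HasFinSupp (T6.InU m) f ∧
        ∀ l : ℕ, l = Module.finrank ℚ F →
          InertCl22 B.s.σ l v w n m (dblFn893 (N₀ w) (finGL305 w g)) f := by
    intro w
    by_cases h : ∃ v : HeightOneSpectrum (𝓞 ℚ), PlaceOver ℚ F v w ∧
        ∀ w' : HeightOneSpectrum (𝓞 F), PlaceOver ℚ F v w' → w' = w
    · obtain ⟨v₀, hv₀, hu₀⟩ := h
      obtain ⟨m₀, hm₀⟩ := T6.H22.inertPartnerDbl22 ℚ F s hgen hprime v₀ w (placeOver_alg22 hv₀)
        (fun w' hw' => hu₀ w' (placeOver_of_le22 hw')) (N₀ w) (finGL305 w g)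
        (dblFn893 (N₀ w) (finGL305 w g)) (T6.H22.isDblInd_ite22 _ _ _)
      refine ⟨m₀, fun v hv _ n m hn hm => ?_⟩
      obtain rfl : v = v₀ := place_unique_below22 hv hv₀
      obtain ⟨f, hf1, hf2, hf3⟩ := hm₀ n m hn hm
      refine ⟨f, hf1, hf2, ?_⟩
      intro l hl e i sw h1 h2 h3
      subst hl
      exact hf3 B.s.σ hsσ e i sw h1 h2 h3
    · exact ⟨0, fun v hv hu => absurd ⟨v, hv, hu⟩ h⟩
  choose Mw hMw using hex
  refine ⟨B.S'.sup Mw, ?_⟩
  intro 𝔫 hlvl T₀ n n₀ m hexp hM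
  obtain rfl : n₀ = N₀ := level_unique22 hexp.lev_base hN₀
  have hD : IsCompData ((toBase962_732 B).comp 𝔫) :=
    ⟨hB.cyc, hB.base, hlvl.level_ne, rfl, hB.frame, hB.frame', hB.aut 𝔫⟩
  have hcycD : IsCycExt ℚ F ((toBase962_732 B).comp 𝔫).l := hcyc
  have hl2 : ((toBase962_732 B).comp 𝔫).l = Module.finrank ℚ F := hrank.symm
  have hnn : ∀ w : HeightOneSpectrum (𝓞 F), n₀ w ≤ n w :=
    fun w => level_mono22 hexp.lev_up hN₀ hlvl.level_g w
  have hup : ∀ w : HeightOneSpectrum (𝓞 F),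
      T6.IsBiInv (T6.InU (n w)) (dblFn893 (n₀ w) (finGL305 w g)) ∧
        T6.HasFinSupp (T6.InU (n w)) (dblFn893 (n₀ w) (finGL305 w g)) :=
    fun w => T6.H22.dbl_inv_up22 (locField22 w) (hnn w) (T6.H22.isDblInd_ite22 _ _ _)
  have hbex : ∀ v : HeightOneSpectrum (𝓞 ℚ), ∃ f : GL (Fin 2) (v.adicCompletion ℚ) → ℂ,
      v ∈ T₀ →
      (T6.IsBiInv (T6.InU (m v)) f ∧ T6.HasFinSupp (T6.InU (m v)) f) ∧
      (∀ w : HeightOneSpectrum (𝓞 F), PlaceOver ℚ F v w →
        (∀ w' : HeightOneSpectrum (𝓞 F), PlaceOver ℚ F v w' → w' = w) →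
        InertCl22 B.s.σ ((toBase962_732 B).comp 𝔫).l v w (n w) (m v)
          (dblFn893 (n₀ w) (finGL305 w g)) f) ∧
      ((∃ w₁ w₂ : HeightOneSpectrum (𝓞 F),
          PlaceOver ℚ F v w₁ ∧ PlaceOver ℚ F v w₂ ∧ w₁ ≠ w₂) →
        SplitCl22 ((toBase962_732 B).comp 𝔫) v n m
          (fun w => dblFn893 (n₀ w) (finGL305 w g)) f) := by
    intro v
    by_cases hvT : v ∈ T₀
    swap
    · exact ⟨fun _ => 0, fun h => absurd h hvT⟩
    by_cases hP : ∃ w : HeightOneSpectrum (𝓞 F), PlaceOver ℚ F v w ∧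
        ∀ w' : HeightOneSpectrum (𝓞 F), PlaceOver ℚ F v w' → w' = w
    · obtain ⟨w₀, hw₀, hu₀⟩ := hP
      have hwS : w₀ ∈ B.S' := (hlvl.mem_S'_g w₀).2 (dvd_up22 ((hexp.div v).1 hvT) hw₀)
      have hMle : Mw w₀ ≤ m v := (Finset.le_sup (f := Mw) hwS).trans (hM v hvT)
      obtain ⟨f, hf1, hf2, hf3⟩ := hMw w₀ v hw₀ hu₀ (n w₀) (m v) (hnn w₀) hMle
      refine ⟨f, fun _ => ⟨⟨hf1, hf2⟩, ?_, ?_⟩⟩
      · intro w hw _
        obtain rfl : w = w₀ := hu₀ w hw
        exact hf3 _ hl2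
      · rintro ⟨w₁, w₂, h₁, h₂, hne⟩
        exact absurd ((hu₀ w₁ h₁).trans (hu₀ w₂ h₂).symm) hne
    · by_cases hQ : ∃ w₁ w₂ : HeightOneSpectrum (𝓞 F),
          PlaceOver ℚ F v w₁ ∧ PlaceOver ℚ F v w₂ ∧ w₁ ≠ w₂
      · obtain ⟨w, i, h1, h2, h3, h4, h5⟩ := enumBad22 ((toBase962_732 B).comp 𝔫) hD hcycD v hQ
        have hlev : ∀ j : ℕ, n (w j) = m v := fun j =>
          level_split22 𝔫 hexp.lev_dn hexp.lev_up v (w j) (i j) (h4 j) (h5 j)
        have hψ : ∀ j : ℕ,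
            T6.IsBiInv (T6.InU (m v)) (fun x => dblFn893 (n₀ (w j)) (finGL305 (w j) g)
              (Matrix.GeneralLinearGroup.map ((i j : v.adicCompletion ℚ ≃+* _) :
                v.adicCompletion ℚ →+* (w j).adicCompletion F) x)) ∧
            T6.HasFinSupp (T6.InU (m v)) (fun x => dblFn893 (n₀ (w j)) (finGL305 (w j) g)
              (Matrix.GeneralLinearGroup.map ((i j : v.adicCompletion ℚ ≃+* _) :
                v.adicCompletion ℚ →+* (w j).adicCompletion F) x)) := by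
          intro j
          have h := hup (w j)
          rw [hlev j] at h
          exact T6.H22.transport22 (i j) (h5 j) (m v) _ h.1 h.2
        obtain ⟨f, hf1, hf2, hf3⟩ := T6.H22.exists_convProd22 (T6.H22.isSub_inU22 (m v))
          ((toBase962_732 B).comp 𝔫).l _ (fun j => (hψ j).1) (fun j => (hψ j).2)
        refine ⟨f, fun _ => ⟨⟨hf2, hf3⟩, ?_, ?_⟩⟩
        · intro w' hw' hu'
          exact absurd ⟨w', hw', hu'⟩ hP
        · intro _
          exact ⟨w, i, h1, h2, h3, h4, h5, hlev, hf1⟩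
      · refine ⟨fun _ => 0, fun _ => ⟨⟨fun _ _ _ _ _ => rfl, ⟨∅, fun x hx => absurd rfl hx⟩⟩,
          ?_, ?_⟩⟩
        · intro w' hw' hu'
          exact absurd ⟨w', hw', hu'⟩ hP
        · intro h
          exact absurd h hQ
  choose b hb using hbex
  refine ⟨b, ⟨fun v hv => (hb v (Finset.mem_of_mem_erase hv)).1, fun μr μc _ _ => ?_⟩⟩
  refine ⟨fun _ _ => 0, fun _ => 0, fun _ => 0, ?_⟩
  exact
    { inv_up := fun v _ w _ => hup w
      inv_down := fun v hv => (hb v (Finset.mem_of_mem_erase hv)).1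
      arch_up := fun _ => isArchTestC_zero570
      arch_down0 := isArchTestR_zero570 0
      arch_down1 := isArchTestR_zero570 (-1)
      inert := fun v hv w hw hu => (hb v (Finset.mem_of_mem_erase hv)).2.1 w hw hu
      split := fun v hv hsp => (hb v (Finset.mem_of_mem_erase hv)).2.2 hsp
      arch := fun _ => isArchMatch_zero570 μr μc }

end Partner

/-! ## 5. The leaf -/

/-- **LEAF T7.L2Q.1.H2a.B.0.1 = BAD-PART over `ℚ`** (`PBQ973.BadPartQC973 F`, VERBATIM,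
UNCONDITIONAL). -/
theorem badPartQC570 (F : Type) [Field F] [NumberField F] : PBQ973.BadPartQC973 F := by
  intro _ hq Φe B hB _ g _
  obtain ⟨M, hM⟩ := exists_bound570 hq hB g
  obtain ⟨𝔫₀, h0, h1, hu, -⟩ := hB.base_level
  have hd : 1 ≤ max M 1 := le_max_right _ _
  refine ⟨𝔫₀ ^ (max M 1), isLevQ_pow570 hB h0 h1 hu hd, fun T₀ n n₀ m hexp => ?_⟩
  refine hM _ (isLevQ_pow570 hB h0 h1 hu hd) T₀ n n₀ m hexp (fun v hv => ?_)
  have hv𝔫 : v.asIdeal ∣ 𝔫₀ ^ (max M 1) := (hexp.div v).1 hv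
  have hv0 : 𝔫₀ ≤ v.asIdeal := by
    rw [Ideal.dvd_iff_le] at hv𝔫
    exact (v.isPrime.pow_le_iff (by omega)).1 hv𝔫
  have h2 := le_level_of_le_pow570 hexp.lev_dn v (Ideal.pow_right_mono hv0 (max M 1))
  exact (le_max_left M 1).trans h2

end Fermat.Agent.LT.T7.H570BP

end
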